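import Fermat.Agent.Gleason.Theta
import Mathlib.NumberTheory.ModularForms.LevelOne.DimensionFormula
import Mathlib.Analysis.Complex.Polynomial.Basic

/-!
# Gleason's theorem

A form of level one and weight `4 m` is a combination of `E₄ ^ (m - 3 j) Δ ^ j`, and substitution
of the theta constants is injective, so the invariant forms are combinations of the corresponding
products of `φ₈` and `ψ₂₄`; the coefficients are integers as the system is triangular.
-/

set_option autoImplicit false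

noncomputable section

open UpperHalfPlane hiding I
open Complex Filter Topology ModularForm Finset EisensteinSeries
open scoped MatrixGroups Classical

namespace FA.Gleason

/-- The enumerator of the extended Hamming code. -/
def phi8 (x y : ℂ) : ℂ := x ^ 8 + 14 * x ^ 4 * y ^ 4 + y ^ 8

/-- `x⁴ y⁴ (x⁴ - y⁴)⁴`. -/
def psi24 (x y : ℂ) : ℂ := x ^ 4 * y ^ 4 * (x ^ 4 - y ^ 4) ^ 4

theorem inv_phi8 : Inv 4 phi8 where
  smul a x y := by unfold phi8; ring
  swap x y := by unfold phi8; ring
  turn x y := by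
    unfold phi8
    linear_combination (14 * x ^ 4 * y ^ 4 + y ^ 8 * (I ^ 4 + 1)) * I_pow_four
  diff := by unfold phi8; fun_prop

theorem inv_psi24 : Inv 12 psi24 where
  smul a x y := by unfold psi24; ring
  swap x y := by unfold psi24; ring
  turn x y := by unfold psi24; simp only [mul_pow, I_pow_four, one_mul]
  diff := by unfold psi24; fun_prop

variable {k : ℤ}

theorem coeff_zero_eq_of_tendsto (f : ModularForm 𝒮ℒ k) {L : ℂ}
    (h : Tendsto ⇑f atImInfty (𝓝 L)) : (qExpansion 1 f).coeff 0 = L := by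
  rw [UpperHalfPlane.qExpansion_coeff_zero one_pos
    (ModularFormClass.analyticAt_cuspFunction_zero f one_pos one_mem_strictPeriods_SL)
    (SlashInvariantFormClass.periodic_comp_ofComplex f one_mem_strictPeriods_SL)]
  exact h.limUnder_eq

/-- `E₄ ^ m`. -/
theorem exists_pow_E4 (m : ℕ) : ∃ g : ModularForm 𝒮ℒ ((4 * m : ℕ) : ℤ),
    (⇑g = fun z => E₄ z ^ m) ∧ (qExpansion 1 g).coeff 0 = 1 := by
  refine ⟨ModularForm.mcast (by push_cast; ring) (E₄.pow m), funext fun z => ?_, ?_⟩
  · simp [ModularForm.coe_pow]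
  · rw [ModularForm.qExpansion_mcast,
      ModularForm.qExpansion_pow one_pos one_mem_strictPeriods_SL,
      PowerSeries.coeff_zero_eq_constantCoeff, map_pow, ← PowerSeries.coeff_zero_eq_constantCoeff,
      E_qExpansion_coeff_zero _ ⟨2, rfl⟩, one_pow]

/-- **The ring of forms of weight divisible by four.** -/
theorem exists_decomposition : ∀ (m : ℕ) (f : ModularForm 𝒮ℒ ((4 * m : ℕ) : ℤ)),
    ∃ a : ℕ → ℂ, a 0 = (qExpansion 1 f).coeff 0 ∧
      ∀ z, f z = ∑ j ∈ range (m / 3 + 1), a j * (E₄ z ^ (m - 3 * j) * discriminant z ^ j) := by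
  intro m
  induction m using Nat.strong_induction_on with | _ m ih =>
  intro f
  obtain ⟨g, hg, hg0⟩ := exists_pow_E4 m
  obtain ⟨c, hc⟩ : ∃ c, c = (qExpansion 1 f).coeff 0 := ⟨_, rfl⟩
  have h0 : (qExpansion 1 ⇑(f - c • g)).coeff 0 = 0 := by
    rw [FunLike.coe_sub, ModularForm.qExpansion_sub one_pos one_mem_strictPeriods_SL, map_sub,
      FunLike.coe_smul, ModularForm.qExpansion_smul one_pos one_mem_strictPeriods_SL,
      PowerSeries.coeff_smul, hg0, ← hc, smul_eq_mul, mul_one, sub_self]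
  obtain ⟨q, hq⟩ : ∃ q, q = CuspForm.discriminantEquiv (toCuspForm (f - c • g) h0) := ⟨_, rfl⟩
  have hval : ∀ z, f z = c * E₄ z ^ m + discriminant z * q z := fun z => by
    rw [hq, discriminant_mul_discriminantEquiv_apply, toCuspForm_apply, FunLike.coe_sub,
      Pi.sub_apply, FunLike.coe_smul, Pi.smul_apply, hg, smul_eq_mul]
    ring
  rcases lt_or_ge m 3 with hm | hm
  · refine ⟨fun _ => c, hc, fun z => ?_⟩
    have hq0 : q = 0 :=
      rank_zero_iff_forall_zero.mp (levelOne_neg_weight_rank_zero (by omega)) q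
    rw [hval, hq0, show m / 3 = 0 by omega, sum_range_one, mul_zero, Nat.sub_zero, pow_zero,
      mul_one, FunLike.coe_zero, Pi.zero_apply, mul_zero, add_zero]
  · obtain ⟨a, -, ha⟩ := ih (m - 3) (by omega)
      (ModularForm.mcast (show ((4 * m : ℕ) : ℤ) - 12 = ((4 * (m - 3) : ℕ) : ℤ) by omega) q)
    refine ⟨fun j => if j = 0 then c else a (j - 1), by simp [hc], fun z => ?_⟩
    have := ha z
    rw [ModularForm.mcast_apply] at this
    rw [hval, this, show m / 3 = (m - 3) / 3 + 1 by omega, sum_range_succ' _ ((m - 3) / 3 + 1),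
      mul_sum, add_comm]
    simp only [Nat.add_eq_zero_iff, one_ne_zero, and_false, if_false, add_tsub_cancel_right]
    congr 1
    · refine sum_congr rfl fun j _ => ?_
      rw [show m - 3 * (j + 1) = m - 3 - 3 * j by omega, pow_succ]
      ring
    · simp

/-- The substitution takes `φ₈` to `E₄` and `ψ₂₄` to a multiple of `Δ`. -/
theorem theta_values : (∀ z : ℍ, phi8 (thetaA z) (thetaB z) = E₄ z) ∧
    ∃ c : ℂ, c ≠ 0 ∧ ∀ z : ℍ, psi24 (thetaA z) (thetaB z) = c * discriminant z := by
  obtain ⟨a, ha0, ha⟩ := exists_decomposition 1 (inv_phi8.form dvd_rfl)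
  obtain ⟨b, hb0, hb⟩ := exists_decomposition 3 (inv_psi24.form ⟨3, rfl⟩)
  rw [coeff_zero_eq_of_tendsto _ inv_phi8.tendsto_form] at ha0
  rw [coeff_zero_eq_of_tendsto _ inv_psi24.tendsto_form] at hb0
  norm_num [phi8] at ha0
  norm_num [psi24] at hb0
  have h2 : ∀ z : ℍ, psi24 (thetaA z) (thetaB z) = b 1 * discriminant z := fun z => by
    have := hb z
    rw [sum_range_succ, sum_range_one, hb0] at this
    exact this.trans (by simp)
  refine ⟨fun z => ?_, b 1, fun h0 => ?_, h2⟩
  · have := ha z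
    rw [show 1 / 3 + 1 = 1 from rfl, sum_range_one, ha0] at this
    exact this.trans (by simp)
  · have := eq_zero_of_theta inv_psi24.smul (fun y => by unfold psi24; fun_prop)
      (p := Polynomial.X ^ 4 * (1 - Polynomial.X ^ 4) ^ 4) (fun y => by simp [psi24])
      (fun z => by rw [h2, h0, zero_mul]) 1 2
    norm_num [psi24] at this

/-- `1 + 14 t + t²`. -/
def polyG : Polynomial ℤ := 1 + 14 * Polynomial.X + Polynomial.X ^ 2

/-- `1 - t`. -/
def polyH : Polynomial ℤ := 1 - Polynomial.X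

variable {n : ℕ} {C : Submodule (ZMod 2) (Fin n → ZMod 2)}

/-- `∑ t ^ (wt c / 4)`. -/
def quarterPoly (C : Submodule (ZMod 2) (Fin n → ZMod 2)) : Polynomial ℤ :=
  ∑ c : C, Polynomial.X ^ (hammingNorm (c : Fin n → ZMod 2) / 4)

theorem IsTypeII.enum_eval (h : IsTypeII C) (y : ℂ) :
    enum C 1 y = ((quarterPoly C).map (Int.castRingHom ℂ)).eval (y ^ 4) := by
  rw [quarterPoly, Polynomial.map_sum, Polynomial.eval_finsetSum, enum]
  refine sum_congr rfl fun c _ => ?_
  rw [Polynomial.map_pow, Polynomial.map_X, Polynomial.eval_pow, Polynomial.eval_X, ← pow_mul,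
    Nat.mul_div_cancel' (h.four_dvd c c.2), one_pow, one_mul]

theorem coeff_term (a : ℂ) (m j i : ℕ) :
    (Polynomial.C a * (Polynomial.X ^ j *
      (polyG ^ (m - 3 * j) * polyH ^ (4 * j)).map (Int.castRingHom ℂ))).coeff i =
        if j ≤ i then a * ((polyG ^ (m - 3 * j) * polyH ^ (4 * j)).coeff (i - j) : ℤ) else 0 := by
  rw [Polynomial.coeff_C_mul, Polynomial.coeff_X_pow_mul', Polynomial.coeff_map, eq_intCast,
    mul_ite, mul_zero]

theorem coeff_diag (m j : ℕ) : (polyG ^ (m - 3 * j) * polyH ^ (4 * j)).coeff 0 = 1 := by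
  simp [Polynomial.coeff_zero_eq_eval_zero, polyG, polyH]

/-- **Gleason's theorem**, in the variable `t = y⁴` and for forms. -/
theorem gleason (h : IsTypeII C) : ∃ a : ℕ → ℤ,
    quarterPoly C = ∑ j ∈ range (n / 24 + 1),
        Polynomial.C (a j) *
          (Polynomial.X ^ j * (polyG ^ (n / 8 - 3 * j) * polyH ^ (4 * j))) ∧
      ∀ x y : ℂ, enum C x y = ∑ j ∈ range (n / 24 + 1),
        (a j : ℂ) * (phi8 x y ^ (n / 8 - 3 * j) * psi24 x y ^ j) := by
  obtain ⟨m, hm⟩ := h.eight_dvd
  obtain ⟨m', hm', hcard⟩ := h.exists_half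
  obtain rfl : n = 2 * (4 * m) := by omega
  obtain rfl : m' = 4 * m := by omega
  have hinv : Inv (4 * m) (enum C) := ⟨enum_smul C, h.enum_swap hcard, h.enum_I, by
    unfold enum; fun_prop⟩
  obtain ⟨b, -, hb⟩ := exists_decomposition m (hinv.form (dvd_mul_right 4 m))
  obtain ⟨hphi, c, hc, hpsi⟩ := theta_values
  rw [show 2 * (4 * m) / 8 = m by omega, show 2 * (4 * m) / 24 = m / 3 by omega]
  have h3 : ∀ j ∈ range (m / 3 + 1), 3 * j ≤ m := fun j hj => by
    rw [Finset.mem_range] at hj; omega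
  obtain ⟨d, hd⟩ : ∃ d : ℕ → ℂ, d = fun j => b j / c ^ j := ⟨_, rfl⟩
  obtain ⟨G, hG⟩ : ∃ G : ℂ → ℂ → ℂ, G = fun x y => enum C x y -
      ∑ j ∈ range (m / 3 + 1), d j * (phi8 x y ^ (m - 3 * j) * psi24 x y ^ j) := ⟨_, rfl⟩
  obtain ⟨q, hq⟩ : ∃ q : Polynomial ℂ, q = ∑ j ∈ range (m / 3 + 1), Polynomial.C (d j) *
      (Polynomial.X ^ j * (polyG ^ (m - 3 * j) * polyH ^ (4 * j)).map (Int.castRingHom ℂ)) :=
    ⟨_, rfl⟩
  have hqe : ∀ y : ℂ, q.eval (y ^ 4) =
      ∑ j ∈ range (m / 3 + 1), d j * (phi8 1 y ^ (m - 3 * j) * psi24 1 y ^ j) := fun y => by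
    rw [hq, Polynomial.eval_finsetSum]
    refine sum_congr rfl fun j _ => ?_
    simp [polyG, polyH, phi8, psi24, mul_pow, ← pow_mul]
    ring_nf
    tauto
  have hGp : ∀ y, G 1 y = (((quarterPoly C).map (Int.castRingHom ℂ) - q).comp
      (Polynomial.X ^ 4)).eval y := fun y => by
    rw [hG, Polynomial.eval_comp, Polynomial.eval_pow, Polynomial.eval_X, Polynomial.eval_sub,
      ← h.enum_eval, hqe]
  have hG0 : ∀ x y, G x y = 0 := eq_zero_of_theta (m := 4 * m) (fun s x y => by
      simp only [hG, enum_smul, inv_phi8.smul, inv_psi24.smul, mul_sub, mul_sum]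
      refine congrArg₂ _ rfl (sum_congr rfl fun j hj => ?_)
      rw [mul_pow, mul_pow, ← pow_mul, ← pow_mul,
        show s ^ (2 * (4 * m)) = s ^ (2 * 4 * (m - 3 * j)) * s ^ (2 * 12 * j) by
          rw [← pow_add]; congr 1; have := h3 j hj; omega]
      ring)
    (fun y => by rw [hG]; unfold enum phi8 psi24; fun_prop) hGp fun z => by
      rw [hG]
      simp only [hphi, hpsi]
      rw [sub_eq_zero]
      refine (hb z).trans (sum_congr rfl fun j _ => ?_)
      rw [hd, mul_pow]
      field_simp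
  have hpoly : (quarterPoly C).map (Int.castRingHom ℂ) = q := Polynomial.funext fun t => by
    obtain ⟨y, rfl⟩ := IsAlgClosed.exists_pow_nat_eq t (by norm_num : 0 < 4)
    have := hG0 1 y
    rwa [hGp, Polynomial.eval_comp, Polynomial.eval_pow, Polynomial.eval_X, Polynomial.eval_sub,
      sub_eq_zero] at this
  have hint : ∀ i ∈ range (m / 3 + 1), d i ∈ (Int.castRingHom ℂ).range := by
    intro i
    induction i using Nat.strong_induction_on with | _ i ih =>
    intro hi
    have hi' := congrArg (Polynomial.coeff · i) hpoly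
    simp only [hq, Polynomial.coeff_map, Polynomial.finsetSum_coeff, coeff_term,
      eq_intCast] at hi'
    rw [← add_sum_erase _ _ hi, if_pos le_rfl, Nat.sub_self, coeff_diag, Int.cast_one,
      mul_one] at hi'
    rw [← sub_eq_of_eq_add hi']
    refine Subring.sub_mem _ ⟨_, rfl⟩ (Subring.sum_mem _ fun j hj => ?_)
    obtain ⟨hne, hj⟩ := Finset.mem_erase.1 hj
    split_ifs with hle
    · exact Subring.mul_mem _ (ih j (lt_of_le_of_ne hle hne) hj) ⟨_, rfl⟩
    · exact Subring.zero_mem _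
  choose! a ha using hint
  refine ⟨a, Polynomial.map_injective (Int.castRingHom ℂ) Int.cast_injective ?_, fun x y => ?_⟩
  · rw [hpoly, hq, Polynomial.map_sum]
    refine sum_congr rfl fun j hj => ?_
    simp only [Polynomial.map_mul, Polynomial.map_C, ha j hj, Polynomial.map_pow,
      Polynomial.map_X]
  · have := hG0 x y
    rw [hG, sub_eq_zero] at this
    rw [this]
    exact sum_congr rfl fun j hj => by rw [← ha j hj, eq_intCast]

end FA.Gleason

end
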