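import Fermat.Agent.Gleason.Ring
import Mathlib.RingTheory.PowerSeries.Inverse
import Mathlib.RingTheory.PowerSeries.WellKnown
import Mathlib.RingTheory.PowerSeries.Derivative

/-!
# The bound of Mallows and Sloane

If all nonzero weights exceed `4 s`, `s = ⌊n / 24⌋ + 1`, then in `u = t (1 - t)⁴ / g³` the series
`g ^ (-n/8)` has no term in `u ^ s`; by Bürmann's formula that term is
`-(n / 8 s) [t ^ (s - 1)] g' g ^ (3 s - n/8 - 1) (1 - t) ^ (-4 s)`, which is nonzero.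
-/

set_option autoImplicit false

noncomputable section

open Finset PowerSeries
open scoped Classical

namespace FA.Gleason

/-- The residue of the derivative of a power of `u = X ψ`, where `φ ψ = 1`. -/
theorem coeff_derivative_pow {φ ψ : ℚ⟦X⟧} (h : φ * ψ = 1) {j s : ℕ} (hj : j < s) :
    coeff (s - 1) (derivative ℚ (X ^ j * ψ ^ j) * φ ^ s) = 0 := by
  rcases j with _ | i
  · simp
  obtain ⟨r, rfl⟩ : ∃ r, s = i + 1 + (r + 1) := ⟨s - i - 2, by omega⟩
  have hd : φ * derivative ℚ ψ + ψ * derivative ℚ φ = 0 := by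
    have := congrArg (derivative ℚ) h
    simpa [Derivation.leibniz, smul_eq_mul] using this
  have key : derivative ℚ (X ^ (i + 1) * ψ ^ (i + 1)) * φ ^ (i + 1 + (r + 1)) =
      C ((i : ℚ) + 1) * (X ^ i * (φ ^ (r + 1) - X * (φ ^ r * derivative ℚ φ))) := by
    rw [Derivation.leibniz, PowerSeries.derivative_pow, PowerSeries.derivative_pow, derivative_X,
      smul_eq_mul, smul_eq_mul, map_add, map_one, map_natCast, Nat.add_sub_cancel]
    have e1 : ψ ^ (i + 1) * φ ^ (i + 1 + (r + 1)) = φ ^ (r + 1) := by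
      rw [pow_add φ, ← mul_assoc, ← mul_pow, mul_comm ψ, h, one_pow, one_mul]
    have e2 : ψ ^ i * derivative ℚ ψ * φ ^ (i + 1 + (r + 1)) = -(φ ^ r * derivative ℚ φ) := by
      have e : ψ ^ i * φ ^ i = 1 := by rw [← mul_pow, mul_comm, h, one_pow]
      calc ψ ^ i * derivative ℚ ψ * φ ^ (i + 1 + (r + 1))
          = ψ ^ i * φ ^ i * (φ ^ (r + 1) * (φ * derivative ℚ ψ)) := by ring
        _ = φ ^ r * (φ * (φ * derivative ℚ ψ)) := by rw [e]; ring
        _ = -(φ ^ r * derivative ℚ φ) := by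
          linear_combination φ ^ (r + 1) * hd - φ ^ r * derivative ℚ φ * h
    push_cast
    linear_combination (((i : ℚ⟦X⟧) + 1) * X ^ i) * e1 + (((i : ℚ⟦X⟧) + 1) * X ^ (i + 1)) * e2
  have hr := congrArg (coeff r) (PowerSeries.derivative_pow (R := ℚ) φ (r + 1))
  rw [PowerSeries.coeff_derivative, Nat.add_sub_cancel, mul_assoc, ← map_natCast C,
    PowerSeries.coeff_C_mul] at hr
  rw [key, show i + 1 + (r + 1) - 1 = (r + 1) + i by omega, PowerSeries.coeff_C_mul,
    PowerSeries.coeff_X_pow_mul, map_sub, PowerSeries.coeff_succ_X_mul]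
  push_cast at hr
  have : ((r : ℚ) + 1) ≠ 0 := by positivity
  rw [show coeff (r + 1) (φ ^ (r + 1)) = coeff r (φ ^ r * derivative ℚ φ) from
    mul_left_cancel₀ this (by linear_combination hr), sub_self, mul_zero]

theorem coeff_mul_nonneg {a b : ℚ⟦X⟧} (ha : ∀ i, 0 ≤ coeff i a) (hb : ∀ i, 0 ≤ coeff i b)
    (i : ℕ) : 0 ≤ coeff i (a * b) := by
  rw [coeff_mul]
  exact sum_nonneg fun p _ => mul_nonneg (ha _) (hb _)

theorem mul_coeff_le {a b : ℚ⟦X⟧} (ha : ∀ i, 0 ≤ coeff i a) (hb : ∀ i, 0 ≤ coeff i b) (i : ℕ) :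
    coeff 0 a * coeff i b ≤ coeff i (a * b) := by
  rw [coeff_mul]
  exact single_le_sum (f := fun p : ℕ × ℕ => coeff p.1 a * coeff p.2 b)
    (fun p _ => mul_nonneg (ha _) (hb _))
    ((Finset.HasAntidiagonal.mem_antidiagonal (a := (0, i))).2 (zero_add i))

theorem coeff_pow_nonneg {a : ℚ⟦X⟧} (ha : ∀ i, 0 ≤ coeff i a) (k i : ℕ) :
    0 ≤ coeff i (a ^ k) := by
  induction k generalizing i with
  | zero => rw [pow_zero, coeff_one]; split_ifs <;> norm_num
  | succ k ih => rw [pow_succ]; exact coeff_mul_nonneg ih ha i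

variable {n : ℕ} {C : Submodule (ZMod 2) (Fin n → ZMod 2)}

theorem coeff_quarterPoly (h : IsTypeII C) {d : ℕ}
    (hd : ∀ c ∈ C, c ≠ 0 → 4 * d ≤ hammingNorm c) {i : ℕ} (hi : i < d) :
    (quarterPoly C).coeff i = if i = 0 then 1 else 0 := by
  rw [quarterPoly, Polynomial.finsetSum_coeff, sum_eq_single (0 : C) (fun c _ hc => ?_) (by simp)]
  · simp [Polynomial.coeff_one]
  · rw [Polynomial.coeff_X_pow, if_neg]
    have := hd c c.2 fun h0 => hc (Subtype.ext h0)
    obtain ⟨k, hk⟩ := h.four_dvd c c.2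
    omega

/-- `ℤ[t] → ℚ⟦t⟧`. -/
def toSeries : Polynomial ℤ →+* ℚ⟦X⟧ :=
  Polynomial.coeToPowerSeries.ringHom.comp (Polynomial.mapRingHom (Int.castRingHom ℚ))

theorem coeff_toSeries (p : Polynomial ℤ) (i : ℕ) : coeff i (toSeries p) = (p.coeff i : ℚ) := by
  simp [toSeries, Polynomial.coeff_coe]

/-- **Mallows and Sloane**: the minimum weight is at most `4 ⌊n / 24⌋ + 4`. -/
theorem exists_weight_le (h : IsTypeII C) (hn : 0 < n) :
    ∃ c ∈ C, c ≠ 0 ∧ hammingNorm c ≤ 4 * (n / 24) + 4 := by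
  by_contra hcon
  push Not at hcon
  obtain ⟨a, ha, -⟩ := gleason h
  obtain ⟨m, rfl⟩ := h.eight_dvd
  rw [show 8 * m / 8 = m by omega, show 8 * m / 24 = m / 3 by omega] at ha
  obtain ⟨s, hs⟩ : ∃ s, s = m / 3 + 1 := ⟨_, rfl⟩
  have hQ : (X : ℚ⟦X⟧) ^ (s + 1) ∣ 1 - toSeries (quarterPoly C) := by
    refine PowerSeries.X_pow_dvd_iff.2 fun i hi => ?_
    rw [map_sub, coeff_toSeries, coeff_quarterPoly h (d := s + 1) (fun c hc hc0 => by
      obtain ⟨k, hk⟩ := h.four_dvd c hc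
      have := hcon c hc hc0
      omega) hi, coeff_one]
    split_ifs <;> norm_num
  obtain ⟨R, hR⟩ := hQ
  obtain ⟨g, hg⟩ : ∃ g, g = toSeries polyG := ⟨_, rfl⟩
  obtain ⟨p, hp⟩ : ∃ p, p = toSeries polyH := ⟨_, rfl⟩
  obtain ⟨pi, hpi⟩ : ∃ pi : ℚ⟦X⟧, pi = PowerSeries.mk 1 := ⟨_, rfl⟩
  have hgc : constantCoeff g = 1 := by
    rw [← coeff_zero_eq_constantCoeff_apply, hg, coeff_toSeries]; simp [polyG]
  have hgi : g⁻¹ * g = 1 := PowerSeries.inv_mul_cancel _ (by rw [hgc]; norm_num)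
  have hpp : pi * p = 1 := by
    rw [hpi, hp]
    convert PowerSeries.mk_one_mul_one_sub_eq_one ℚ using 2
    simp [toSeries, polyH]
  have hinv : g ^ 3 * pi ^ 4 * (g⁻¹ ^ 3 * p ^ 4) = 1 := by
    rw [show g ^ 3 * pi ^ 4 * (g⁻¹ ^ 3 * p ^ 4) = (g⁻¹ * g) ^ 3 * (pi * p) ^ 4 by ring, hgi, hpp,
      one_pow, one_pow, one_mul]
  have hexp : g⁻¹ ^ m = ∑ j ∈ range (m / 3 + 1),
      PowerSeries.C (a j : ℚ) * (X ^ j * (g⁻¹ ^ 3 * p ^ 4) ^ j) + X ^ (s + 1) * (R * g⁻¹ ^ m) := by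
    rw [← mul_assoc (X ^ (s + 1) : ℚ⟦X⟧), ← hR, sub_mul, one_mul, ha, map_sum, sum_mul,
      ← sub_eq_iff_eq_add, sub_sub_cancel]
    refine sum_congr rfl fun j hj => ?_
    rw [Finset.mem_range] at hj
    rw [map_mul, map_mul, map_mul, map_pow, map_pow, map_pow, ← hg, ← hp,
      show toSeries (Polynomial.C (a j)) = PowerSeries.C (a j : ℚ) by simp [toSeries],
      show toSeries Polynomial.X = X by simp [toSeries], mul_pow, ← pow_mul, ← pow_mul,
      show g⁻¹ ^ m = g⁻¹ ^ (m - 3 * j) * g⁻¹ ^ (3 * j) by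
        rw [← pow_add]; congr 1; omega]
    linear_combination (PowerSeries.C (a j : ℚ) * (X ^ j * (g⁻¹ ^ (3 * j) * p ^ (4 * j)))) *
      ((mul_pow g⁻¹ g (m - 3 * j)).symm.trans (by rw [hgi, one_pow]))
  have hres : coeff (s - 1) (derivative ℚ (g⁻¹ ^ m) * (g ^ 3 * pi ^ 4) ^ s) = 0 := by
    rw [hexp, map_add, map_sum, add_mul, map_add, sum_mul, map_sum]
    rw [sum_eq_zero fun j hj => ?_, zero_add]
    · rw [Derivation.leibniz, smul_eq_mul, smul_eq_mul, PowerSeries.derivative_pow, derivative_X,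
        mul_one, Nat.add_sub_cancel]
      refine PowerSeries.X_pow_dvd_iff.1 (show (X : ℚ⟦X⟧) ^ s ∣ _ from Dvd.intro
        ((X * derivative ℚ (R * g⁻¹ ^ m) + R * g⁻¹ ^ m * ((s + 1 : ℕ) : ℚ⟦X⟧)) *
          (g ^ 3 * pi ^ 4) ^ s) ?_) _ (by omega)
      ring
    · rw [Derivation.leibniz, derivative_C, smul_zero, add_zero, smul_eq_mul, mul_assoc,
        PowerSeries.coeff_C_mul, coeff_derivative_pow hinv (by rw [Finset.mem_range] at hj; omega),
        mul_zero]
  have hval : derivative ℚ (g⁻¹ ^ m) * (g ^ 3 * pi ^ 4) ^ s = PowerSeries.C (-(m : ℚ)) *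
      (derivative ℚ g * g ^ (3 * s - (m + 1)) * pi ^ (4 * s)) := by
    obtain ⟨m', rfl⟩ : ∃ m', m = m' + 1 := ⟨m - 1, by omega⟩
    rw [PowerSeries.derivative_pow, PowerSeries.derivative_inv', Nat.add_sub_cancel, mul_pow,
      ← pow_mul, ← pow_mul, show g ^ (3 * s) = g ^ (3 * s - (m' + 1 + 1)) * g ^ (m' + 2) by
        rw [← pow_add]; congr 1; omega, map_neg, map_natCast]
    linear_combination (-((m' + 1 : ℕ) : ℚ⟦X⟧) * derivative ℚ g *
      g ^ (3 * s - (m' + 1 + 1)) * pi ^ (4 * s)) *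
      ((mul_pow g⁻¹ g (m' + 2)).symm.trans (by rw [hgi, one_pow]))
  rw [hval, PowerSeries.coeff_C_mul, mul_eq_zero, neg_eq_zero, Nat.cast_eq_zero,
    or_iff_right (by omega : m ≠ 0)] at hres
  have hg0 : ∀ i, 0 ≤ coeff i g := fun i => by
    rw [hg, coeff_toSeries, Int.cast_nonneg_iff, polyG,
      show (14 : Polynomial ℤ) = Polynomial.C 14 from (map_ofNat _ 14).symm]
    simp only [Polynomial.coeff_add, Polynomial.coeff_one, Polynomial.coeff_C_mul,
      Polynomial.coeff_X, Polynomial.coeff_X_pow]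
    split_ifs <;> norm_num
  have hdg : ∀ i, 0 ≤ coeff i (derivative ℚ g) := fun i => by
    rw [PowerSeries.coeff_derivative]
    exact mul_nonneg (hg0 _) (by positivity)
  have hdg0 : coeff 0 (derivative ℚ g) = 14 := by
    rw [PowerSeries.coeff_derivative, hg, coeff_toSeries]
    rw [polyG, show (14 : Polynomial ℤ) = Polynomial.C 14 from (map_ofNat _ 14).symm]
    simp only [Polynomial.coeff_add, Polynomial.coeff_one, Polynomial.coeff_C_mul,
      Polynomial.coeff_X, Polynomial.coeff_X_pow]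
    norm_num
  have hpi0 : ∀ i, 0 ≤ coeff i pi := fun i => by simp [hpi]
  have hpi1 : ∀ k i, 1 ≤ coeff i (pi ^ (k + 1)) := fun k i => by
    induction k with
    | zero => simp [hpi]
    | succ k ih =>
      rw [pow_succ']
      refine le_trans ?_ (mul_coeff_le hpi0 (coeff_pow_nonneg hpi0 _) i)
      simpa [hpi] using ih
  have hA := mul_coeff_le (coeff_mul_nonneg hdg (coeff_pow_nonneg hg0 (3 * s - (m + 1))))
    (coeff_pow_nonneg hpi0 (4 * s)) (s - 1)
  rw [hres, coeff_zero_eq_constantCoeff_apply, map_mul, map_pow, hgc, one_pow, mul_one,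
    ← coeff_zero_eq_constantCoeff_apply, hdg0] at hA
  have := hpi1 (4 * s - 1) (s - 1)
  rw [show 4 * s - 1 + 1 = 4 * s by omega] at this
  linarith

/-- **Length `24`, minimum weight `8`**: the enumerator of the Golay code. -/
theorem enum_eq_golay {C : Submodule (ZMod 2) (Fin 24 → ZMod 2)} (h : IsTypeII C)
    (hd : ∀ c ∈ C, c ≠ 0 → 8 ≤ hammingNorm c) (x y : ℂ) :
    enum C x y = x ^ 24 + 759 * x ^ 16 * y ^ 8 + 2576 * x ^ 12 * y ^ 12 +
      759 * x ^ 8 * y ^ 16 + y ^ 24 := by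
  obtain ⟨a, ha, hW⟩ := gleason h
  have h0 := congrArg (Polynomial.coeff · 0) ha
  have h1 := congrArg (Polynomial.coeff · 1) ha
  simp only [sum_range_succ, sum_range_zero, zero_add, Nat.reduceDiv, Nat.reduceMul,
    Nat.reduceSub, Polynomial.coeff_add, Polynomial.coeff_C_mul, Polynomial.coeff_X_pow_mul',
    coeff_quarterPoly h (d := 2) hd (by norm_num : (0 : ℕ) < 2),
    coeff_quarterPoly h (d := 2) hd (by norm_num : (1 : ℕ) < 2)] at h0 h1
  simp [Polynomial.coeff_zero_eq_eval_zero, polyG, polyH] at h0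
  have hg : ((polyG ^ 3 * polyH ^ 0).coeff 1 : ℤ) = 42 := by
    rw [show (polyG ^ 3 * polyH ^ 0).coeff 1 = (Polynomial.derivative (polyG ^ 3)).eval 0 by
      rw [pow_zero, mul_one, ← Polynomial.coeff_zero_eq_eval_zero, Polynomial.coeff_derivative]
      simp]
    simp [Polynomial.derivative_pow, polyG, Polynomial.derivative_ofNat]
  simp [polyG, polyH] at hg
  simp [Polynomial.coeff_zero_eq_eval_zero, polyG, polyH] at h1
  rw [hg] at h1
  rw [hW, sum_range_succ, sum_range_one]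
  simp only [Nat.reduceDiv, Nat.reduceMul, Nat.reduceSub, ← h0, show a 1 = -42 by omega]
  unfold phi8 psi24
  push_cast
  ring

end FA.Gleason

end
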