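import Mathlib.InformationTheory.Hamming
import Mathlib.Analysis.Complex.Basic
import Mathlib.Algebra.Field.ZMod
import Mathlib.Data.Matrix.Mul

/-!
# Weight enumerators of binary codes

`W_C (x, y) = ∑ x ^ (n - wt c) y ^ wt c`, the identity of MacWilliams, and its consequences for
self-dual codes with all weights divisible by four.
-/

set_option autoImplicit false

noncomputable section

open Finset Matrix
open scoped Classical

namespace FA.Gleason

/-- `1` at `0`, `-1` at `1`. -/
def sign2 (a : ZMod 2) : ℂ := if a = 0 then 1 else -1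

theorem eq_zero_or_one : ∀ a : ZMod 2, a = 0 ∨ a = 1 := by decide

theorem sign2_add (a b : ZMod 2) : sign2 (a + b) = sign2 a * sign2 b := by
  rcases eq_zero_or_one a with rfl | rfl <;> rcases eq_zero_or_one b with rfl | rfl <;>
    simp [sign2, show (1 : ZMod 2) + 1 = 0 by decide]

theorem sign2_sum {ι : Type*} (s : Finset ι) (f : ι → ZMod 2) :
    sign2 (∑ i ∈ s, f i) = ∏ i ∈ s, sign2 (f i) := by
  induction s using Finset.induction with
  | empty => simp [sign2]
  | insert a s ha ih => rw [sum_insert ha, prod_insert ha, sign2_add, ih]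

variable {n : ℕ}

/-- The dual code. -/
def dual (C : Submodule (ZMod 2) (Fin n → ZMod 2)) : Submodule (ZMod 2) (Fin n → ZMod 2) where
  carrier := {v | ∀ c ∈ C, ∑ i, v i * c i = 0}
  add_mem' {u v} hu hv c hc := by
    simp only [Pi.add_apply, add_mul, sum_add_distrib, hu c hc, hv c hc, add_zero]
  zero_mem' c _ := by simp
  smul_mem' a v hv c hc := by
    simp only [Pi.smul_apply, smul_eq_mul, mul_assoc, ← mul_sum, hv c hc, mul_zero]

theorem mem_dual {C : Submodule (ZMod 2) (Fin n → ZMod 2)} {v : Fin n → ZMod 2} :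
    v ∈ dual C ↔ ∀ c ∈ C, ∑ i, v i * c i = 0 :=
  Iff.rfl

/-- The weight enumerator. -/
def enum (C : Submodule (ZMod 2) (Fin n → ZMod 2)) (x y : ℂ) : ℂ :=
  ∑ c : C, x ^ (n - hammingNorm (c : Fin n → ZMod 2)) * y ^ hammingNorm (c : Fin n → ZMod 2)

theorem prod_ite_weight (v : Fin n → ZMod 2) (x y : ℂ) :
    (∏ i, if v i = 0 then x else y) = x ^ (n - hammingNorm v) * y ^ hammingNorm v := by
  rw [prod_ite, prod_const, prod_const]
  congr 2
  have h := card_filter_add_card_filter_not (s := (univ : Finset (Fin n))) fun i => v i = 0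
  rw [card_univ, Fintype.card_fin] at h
  have : hammingNorm v = #{i | ¬v i = 0} := rfl
  omega

theorem sum_sign2 (C : Submodule (ZMod 2) (Fin n → ZMod 2)) (v : Fin n → ZMod 2) :
    ∑ c : C, sign2 (∑ i, v i * (c : Fin n → ZMod 2) i) =
      if v ∈ dual C then (Nat.card C : ℂ) else 0 := by
  split_ifs with hv
  · rw [sum_congr rfl fun c _ => by rw [hv c c.2, sign2, if_pos rfl], sum_const, card_univ,
      nsmul_one, Nat.card_eq_fintype_card]
  · rw [mem_dual] at hv
    push Not at hv
    obtain ⟨c₀, hc₀, hne⟩ := hv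
    have h1 : ∑ i, v i * c₀ i = 1 := Fin.eq_one_of_ne_zero _ hne
    have h := Equiv.sum_comp (Equiv.addRight (⟨c₀, hc₀⟩ : C))
      fun c : C => sign2 (∑ i, v i * (c : Fin n → ZMod 2) i)
    simp only [Equiv.coe_addRight, Submodule.coe_add, Pi.add_apply, mul_add, sum_add_distrib,
      sign2_add, h1, ← sum_mul] at h
    simp only [sign2, one_ne_zero, if_false, mul_neg, mul_one] at h
    simp only [sign2]
    linear_combination (-1 / 2 : ℂ) * h

/-- **The identity of MacWilliams.** -/
theorem macWilliams (C : Submodule (ZMod 2) (Fin n → ZMod 2)) (x y : ℂ) :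
    enum C (x + y) (x - y) = (Nat.card C : ℂ) * enum (dual C) x y := by
  have h : ∀ c : Fin n → ZMod 2, (x + y) ^ (n - hammingNorm c) * (x - y) ^ hammingNorm c =
      ∑ v : Fin n → ZMod 2,
        sign2 (∑ i, v i * c i) * ∏ i, (if v i = 0 then x else y) := fun c => by
    rw [← prod_ite_weight,
      prod_congr rfl (g := fun i => ∑ a : ZMod 2, sign2 (a * c i) * if a = 0 then x else y)
        fun i _ => ?_,
      Fintype.prod_sum fun i (a : ZMod 2) => sign2 (a * c i) * if a = 0 then x else y]
    · exact sum_congr rfl fun v _ => by rw [prod_mul_distrib, ← sign2_sum]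
    · rw [show (univ : Finset (ZMod 2)) = {0, 1} by decide, sum_pair (by decide)]
      generalize c i = b
      rcases eq_zero_or_one b with rfl | rfl <;> simp [sign2, sub_eq_add_neg]
  simp only [enum, h]
  rw [sum_comm]
  simp only [← sum_mul, sum_sign2, ite_mul, zero_mul]
  rw [← sum_filter, mul_sum, ← sum_subtype (p := (· ∈ dual C)) _
    (fun v => Finset.mem_filter.trans (and_iff_right (Finset.mem_univ v)))
    fun v => (Nat.card C : ℂ) * (x ^ (n - hammingNorm v) * y ^ hammingNorm v)]
  exact sum_congr rfl fun v _ => by rw [prod_ite_weight]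

theorem hammingNorm_le (v : Fin n → ZMod 2) : hammingNorm v ≤ n :=
  (hammingNorm_le_card_fintype (x := v)).trans_eq (Fintype.card_fin n)

theorem enum_one_zero (C : Submodule (ZMod 2) (Fin n → ZMod 2)) : enum C 1 0 = 1 := by
  rw [enum, sum_eq_single (0 : C) (fun c _ hc => ?_) (by simp)]
  · simp
  · rw [zero_pow (hammingNorm_ne_zero_iff.2 fun h => hc (Subtype.ext h)), mul_zero]

theorem enum_one_one (C : Submodule (ZMod 2) (Fin n → ZMod 2)) :
    enum C 1 1 = (Nat.card C : ℂ) := by
  simp [enum, Nat.card_eq_fintype_card]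

theorem enum_smul (C : Submodule (ZMod 2) (Fin n → ZMod 2)) (a x y : ℂ) :
    enum C (a * x) (a * y) = a ^ n * enum C x y := by
  simp only [enum, mul_sum]
  refine sum_congr rfl fun c _ => ?_
  conv_rhs => rw [show a ^ n = a ^ (n - hammingNorm (c : Fin n → ZMod 2)) *
    a ^ hammingNorm (c : Fin n → ZMod 2) by
    rw [← pow_add, Nat.sub_add_cancel (hammingNorm_le _)]]
  ring

/-- The orders of a code and of its dual. -/
theorem card_mul_card_dual (C : Submodule (ZMod 2) (Fin n → ZMod 2)) :
    Nat.card C * Nat.card (dual C) = 2 ^ n := by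
  have h := macWilliams C 1 1
  rw [sub_self, show (1 + 1 : ℂ) = 2 * 1 by norm_num, show (0 : ℂ) = 2 * 0 by simp, enum_smul,
    enum_one_zero, enum_one_one, mul_one] at h
  exact_mod_cast h.symm

/-- Self-dual with all weights divisible by four. -/
structure IsTypeII (C : Submodule (ZMod 2) (Fin n → ZMod 2)) : Prop where
  selfDual : ∀ v, v ∈ C ↔ ∀ c ∈ C, ∑ i, v i * c i = 0
  four_dvd : ∀ c ∈ C, 4 ∣ hammingNorm c

variable {C : Submodule (ZMod 2) (Fin n → ZMod 2)}

theorem IsTypeII.dual_eq (h : IsTypeII C) : dual C = C :=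
  SetLike.ext fun v => (h.selfDual v).symm

theorem IsTypeII.exists_half (h : IsTypeII C) : ∃ m, n = 2 * m ∧ Nat.card C = 2 ^ m := by
  have hc := card_mul_card_dual C
  rw [h.dual_eq] at hc
  obtain ⟨m, -, hm⟩ := (Nat.dvd_prime_pow Nat.prime_two).1 (Dvd.intro _ hc)
  rw [hm, ← pow_add] at hc
  exact ⟨m, by have := Nat.pow_right_injective le_rfl hc; omega, hm⟩

theorem IsTypeII.enum_I (h : IsTypeII C) (x y : ℂ) :
    enum C x (Complex.I * y) = enum C x y := by
  refine sum_congr rfl fun c _ => ?_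
  obtain ⟨j, hj⟩ := h.four_dvd c c.2
  rw [hj, mul_pow, pow_mul Complex.I, Complex.I_pow_four, one_pow, one_mul]

theorem IsTypeII.enum_swap (h : IsTypeII C) {m : ℕ} (hm : Nat.card C = 2 ^ m) (x y : ℂ) :
    enum C (x + y) (x - y) = 2 ^ m * enum C x y := by
  rw [macWilliams, h.dual_eq, hm]
  push_cast
  rfl

/-- **The length is a multiple of eight.** -/
theorem IsTypeII.eight_dvd (h : IsTypeII C) : 8 ∣ n := by
  obtain ⟨m, rfl, hm⟩ := h.exists_half
  have e : ∀ x y : ℂ, enum C (x + Complex.I * y) (x - Complex.I * y) = 2 ^ m * enum C x y :=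
    fun x y => by rw [h.enum_swap hm, h.enum_I]
  have h3 := e (1 + Complex.I) (1 - Complex.I)
  have h1 := e 1 0
  have h2 := e 1 1
  simp only [mul_zero, add_zero, sub_zero, mul_one] at h1 h2
  rw [h2, h1, enum_one_zero, mul_one] at h3
  rw [show 1 + Complex.I + Complex.I * (1 - Complex.I) = 2 * (1 + Complex.I) * 1 by
      linear_combination -Complex.I_mul_I,
    show 1 + Complex.I - Complex.I * (1 - Complex.I) = 2 * (1 + Complex.I) * 0 by
      linear_combination Complex.I_mul_I,
    enum_smul, enum_one_zero, mul_one, pow_mul] at h3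
  have h8 : (2 * (1 + Complex.I)) ^ 2 = 8 * Complex.I := by linear_combination 4 * Complex.I_sq
  rw [h8, mul_pow, ← pow_add, ← pow_add, show m + (m + m) = 3 * m by ring, pow_mul,
    show (2 : ℂ) ^ 3 = 8 by norm_num] at h3
  have hI : Complex.I ^ m = 1 := mul_left_cancel₀ (pow_ne_zero m (by norm_num : (8 : ℂ) ≠ 0))
    (by rw [h3, mul_one])
  rw [show Complex.I ^ m = Complex.I ^ (m % 4) by
    conv_lhs => rw [← Nat.div_add_mod m 4, pow_add, pow_mul, Complex.I_pow_four, one_pow,
      one_mul]] at hI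
  rcases (by omega : m % 4 = 0 ∨ m % 4 = 1 ∨ m % 4 = 2 ∨ m % 4 = 3) with h0 | h0 | h0 | h0
  · omega
  all_goals norm_num [h0, Complex.ext_iff, pow_succ] at hI

end FA.Gleason

end
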