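import Fermat.Agent.Gleason.Bound
import Fermat.Agent.Forms3.Golay

/-!
# The binary Golay code as a code over `𝔽₂`
-/

set_option autoImplicit false

noncomputable section

open Finset
open scoped Classical

namespace FA.Gleason

/-- The coordinates as truth values. -/
def toBits (v : Fin 24 → ZMod 2) : Fin 24 → Bool := fun i => decide (v i = 1)

theorem toBits_add (u v : Fin 24 → ZMod 2) :
    toBits (u + v) = fun i => xor (toBits u i) (toBits v i) := funext fun i => by
  simp only [toBits, Pi.add_apply]
  rcases eq_zero_or_one (u i) with h | h <;> rcases eq_zero_or_one (v i) with h' | h' <;>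
    simp only [h, h'] <;> decide

/-- The Golay code. -/
def golayCode : Submodule (ZMod 2) (Fin 24 → ZMod 2) where
  carrier := {v | toBits v ∈ FA.Golay.code}
  add_mem' {u v} hu hv := by
    show toBits (u + v) ∈ FA.Golay.code
    rw [toBits_add]
    exact FA.Golay.bxor_mem hu hv
  zero_mem' := by
    have : toBits 0 = fun _ => false := funext fun i => by simp [toBits]
    show toBits 0 ∈ FA.Golay.code
    rw [this]
    exact FA.Golay.zero_mem
  smul_mem' a v hv := by
    rcases eq_zero_or_one a with rfl | rfl
    · have : toBits ((0 : ZMod 2) • v) = fun _ => false := funext fun i => by simp [toBits]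
      show toBits ((0 : ZMod 2) • v) ∈ FA.Golay.code
      rw [this]
      exact FA.Golay.zero_mem
    · rwa [one_smul]

theorem hammingNorm_eq_wt (v : Fin 24 → ZMod 2) : hammingNorm v = FA.Golay.wt (toBits v) := by
  refine congrArg Finset.card (Finset.filter_congr fun i _ => ?_)
  rcases eq_zero_or_one (v i) with h | h <;> simp [toBits, h]

theorem inner_eq_common (u v : Fin 24 → ZMod 2) :
    ∑ i, u i * v i = (FA.Golay.common (toBits u) (toBits v) : ZMod 2) := by
  rw [FA.Golay.common, card_filter, Nat.cast_sum]
  refine sum_congr rfl fun i _ => ?_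
  rcases eq_zero_or_one (u i) with h | h <;> rcases eq_zero_or_one (v i) with h' | h' <;>
    simp [toBits, h, h']

theorem golayCode_isTypeII :
    IsTypeII golayCode ∧ ∀ c ∈ golayCode, c ≠ 0 → 8 ≤ hammingNorm c := by
  have hmem : ∀ v, v ∈ golayCode ↔ toBits v ∈ FA.Golay.code := fun _ => Iff.rfl
  refine ⟨⟨fun v => ⟨fun hv c hc => ?_, fun h =>
      (hmem v).2 (FA.Golay.mem_of_two_dvd_common (c := toBits v) fun d hd => ?_)⟩,
    fun c hc => ?_⟩, fun c hc h0 => ?_⟩
  · rw [inner_eq_common, CharP.cast_eq_zero_iff (ZMod 2) 2]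
    exact FA.Golay.two_dvd_common ((hmem _).1 hv) ((hmem _).1 hc)
  · have e : toBits (fun i => if d i then 1 else 0) = d := funext fun i => by
      cases hdi : d i <;> simp [toBits, hdi]
    have := h (fun i => if d i then 1 else 0) ((hmem _).2 (by rwa [e]))
    rwa [inner_eq_common, e, CharP.cast_eq_zero_iff (ZMod 2) 2] at this
  · exact hammingNorm_eq_wt c ▸ FA.Golay.four_dvd_wt ((hmem c).1 hc)
  · have h1 := FA.Golay.wt_mem ((hmem c).1 hc)
    have h2 : 0 < hammingNorm c := hammingNorm_pos_iff.2 h0
    rw [← hammingNorm_eq_wt] at h1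
    simp only [mem_insert, mem_singleton] at h1
    omega

end FA.Gleason

end
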