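import Fermat.Agent.Gleason.Codes
import Fermat.Agent.ThetaAGM.Constants
import Mathlib.NumberTheory.ModularForms.Discriminant

/-!
# Invariant polynomials as modular forms of level one

With `A = θ₃(2τ)` and `B = θ₂(2τ)` the translation takes `(A, B)` to `(A, i B)` and the inversion
to a multiple of `(A + B, A - B)`.
-/

set_option autoImplicit false

noncomputable section

open UpperHalfPlane hiding I
open Complex Filter Topology ModularForm SlashInvariantForm
open scoped Real MatrixGroups Manifold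

namespace FA.Gleason

/-- `θ₃(2τ)`. -/
def thetaA (τ : ℂ) : ℂ := jacobiTheta (2 * τ)

/-- `θ₂(2τ)`. -/
def thetaB (τ : ℂ) : ℂ := cexp (π * I * τ / 2) * jacobiTheta₂ τ (2 * τ)

theorem thetaA_add_one (τ : ℂ) : thetaA (τ + 1) = thetaA τ := by
  rw [thetaA, mul_add, mul_one, add_comm, jacobiTheta_two_add, thetaA]

theorem thetaB_add_one (τ : ℂ) : thetaB (τ + 1) = I * thetaB τ := by
  rw [thetaB, mul_add 2 τ 1, mul_one, jacobiTheta₂_add_left, jacobiTheta₂_add_right, thetaB,
    show π * I * (τ + 1) / 2 = π * I * τ / 2 + π / 2 * I by ring, Complex.exp_add,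
    Complex.exp_pi_div_two_mul_I]
  ring

/-- Splitting a sum over `ℤ` by parity. -/
theorem hasSum_parity {f : ℤ → ℂ} {a b : ℂ} (ha : HasSum (fun k => f (2 * k)) a)
    (hb : HasSum (fun k => f (2 * k + 1)) b) : HasSum f (a + b) := by
  have hinj₁ : Function.Injective fun k : ℤ => 2 * k := fun x y h => by
    simp only at h; omega
  have hinj₂ : Function.Injective fun k : ℤ => 2 * k + 1 := fun x y h => by
    simp only at h; omega
  refine (hinj₁.hasSum_range_iff.2 ha).add_isCompl ?_ (hinj₂.hasSum_range_iff.2 hb)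
  refine ⟨Set.disjoint_left.2 ?_, codisjoint_iff.2 (Set.eq_univ_of_forall fun n => ?_)⟩
  · rintro _ ⟨x, rfl⟩ ⟨y, hy⟩
    simp only at hy
    omega
  · rcases Int.even_or_odd' n with ⟨k, rfl | rfl⟩
    · exact Or.inl ⟨k, rfl⟩
    · exact Or.inr ⟨k, rfl⟩

theorem theta_split {τ : ℂ} (hτ : 0 < τ.im) :
    jacobiTheta (τ / 2) = thetaA τ + thetaB τ ∧
      jacobiTheta₂ (1 / 2) (τ / 2) = thetaA τ - thetaB τ := by
  have h2 : 0 < (2 * τ).im := by simpa using hτ
  have hh : 0 < (τ / 2).im := by rw [Complex.div_ofNat_im]; positivity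
  have hA : HasSum (fun k : ℤ => jacobiTheta₂_term k 0 (2 * τ)) (thetaA τ) := by
    rw [thetaA, jacobiTheta_eq_jacobiTheta₂]; exact hasSum_jacobiTheta₂_term 0 h2
  have hB : HasSum (fun k : ℤ => cexp (π * I * τ / 2) * jacobiTheta₂_term k τ (2 * τ))
      (thetaB τ) := (hasSum_jacobiTheta₂_term τ h2).mul_left _
  have he : ∀ k : ℤ, cexp (2 * π * I * k) = 1 := fun k => by
    rw [mul_comm (2 * π * I : ℂ)]; exact Complex.exp_int_mul_two_pi_mul_I k
  constructor
  · rw [jacobiTheta_eq_jacobiTheta₂]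
    refine (hasSum_jacobiTheta₂_term 0 hh).unique (hasSum_parity ?_ ?_)
    · convert hA using 1
      funext k
      simp only [jacobiTheta₂_term, mul_zero, zero_add]
      push_cast
      ring_nf
    · convert hB using 1
      funext k
      simp only [jacobiTheta₂_term, ← Complex.exp_add]
      push_cast
      ring_nf
  · refine (hasSum_jacobiTheta₂_term (1 / 2) hh).unique ?_
    rw [sub_eq_add_neg]
    refine hasSum_parity ?_ ?_
    · convert hA using 1
      funext k
      simp only [jacobiTheta₂_term, mul_zero, zero_add]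
      rw [Complex.exp_add]
      push_cast
      rw [show (2 : ℂ) * π * I * (2 * k) * (1 / 2) = 2 * π * I * k by ring, he, one_mul]
      ring_nf
    · refine hB.neg.congr_fun fun k => ?_
      simp only [jacobiTheta₂_term, ← Complex.exp_add]
      push_cast
      rw [show (2 : ℂ) * π * I * (2 * k + 1) * (1 / 2) + π * I * (2 * k + 1) ^ 2 * (τ / 2) =
          π * I + 2 * π * I * k +
            (π * I * τ / 2 + (2 * π * I * k * τ + π * I * k ^ 2 * (2 * τ))) by ring,
        Complex.exp_add, Complex.exp_add (π * I : ℂ), Complex.exp_pi_mul_I, he, mul_one,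
        neg_one_mul]

theorem theta_inversion {τ : ℂ} (hτ : 0 < τ.im) :
    thetaA (-1 / τ) = (-I * (τ / 2)) ^ (1 / 2 : ℂ) * (thetaA τ + thetaB τ) ∧
      thetaB (-1 / τ) = (-I * (τ / 2)) ^ (1 / 2 : ℂ) * (thetaA τ - thetaB τ) := by
  obtain ⟨h1, h2⟩ := theta_split hτ
  have h0 : τ ≠ 0 := fun h => by simp [h] at hτ
  have hs : (-I * (τ / 2)) ^ (1 / 2 : ℂ) ≠ 0 := by
    rw [Ne, cpow_eq_zero_iff, not_and_or]
    exact Or.inl (mul_ne_zero (neg_ne_zero.2 I_ne_zero) (div_ne_zero h0 two_ne_zero))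
  rw [← h1, ← h2, jacobiTheta_eq_jacobiTheta₂, jacobiTheta₂_functional_equation 0 (τ / 2),
    jacobiTheta₂_functional_equation (1 / 2) (τ / 2), thetaA, thetaB,
    jacobiTheta_eq_jacobiTheta₂]
  refine ⟨?_, ?_⟩
  · rw [zero_div, zero_pow two_ne_zero, mul_zero, zero_div, Complex.exp_zero, mul_one, ← mul_assoc,
      mul_one_div, div_self hs, one_mul]
    congr 1
    field_simp
  · rw [← mul_assoc, ← mul_assoc, mul_one_div, div_self hs, one_mul,
      ← jacobiTheta₂_neg_left (1 / 2 / (τ / 2))]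
    congr 1
    · congr 1
      field_simp
    · congr 1 <;> field_simp

theorem differentiableAt_thetaA {τ : ℂ} (hτ : 0 < τ.im) : DifferentiableAt ℂ thetaA τ :=
  (differentiableAt_jacobiTheta (show 0 < (2 * τ).im by simpa using hτ)).comp τ
    (differentiableAt_id.const_mul _)

theorem differentiableAt_thetaB {τ : ℂ} (hτ : 0 < τ.im) : DifferentiableAt ℂ thetaB τ := by
  have hopen : IsOpen {z : ℂ | 0 < z.im} := isOpen_lt continuous_const continuous_im
  refine DifferentiableAt.congr_of_eventuallyEq (f := fun z => jacobiTheta (z / 2) - thetaA z)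
    ?_ (Filter.eventuallyEq_of_mem (hopen.mem_nhds hτ) fun z hz => ?_)
  · refine DifferentiableAt.sub ?_ (differentiableAt_thetaA hτ)
    exact (differentiableAt_jacobiTheta (show 0 < (τ / 2).im by
      rw [Complex.div_ofNat_im]; positivity)).comp τ (differentiableAt_id.div_const (2 : ℂ))
  · show thetaB z = jacobiTheta (z / 2) - thetaA z
    rw [(theta_split hz).1, add_sub_cancel_left]

theorem tendsto_jacobiTheta {c : ℝ} (hc : 0 < c) :
    Tendsto (fun z : ℍ => jacobiTheta ((c : ℂ) * z)) atImInfty (𝓝 1) := by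
  have h : Tendsto (fun z : ℍ => (c : ℂ) * z) atImInfty (comap Complex.im atTop) := by
    rw [atImInfty, tendsto_comap_iff]
    simp only [Function.comp_def, Complex.im_ofReal_mul]
    exact tendsto_comap.const_mul_atTop hc
  have h0 : Tendsto (fun τ => jacobiTheta τ - 1) (comap Complex.im atTop) (𝓝 0) :=
    isBigO_at_im_infty_jacobiTheta_sub_one.trans_tendsto (Real.tendsto_exp_atBot.comp
      (Tendsto.const_mul_atTop_of_neg (neg_lt_zero.2 Real.pi_pos) tendsto_comap))
  simpa using (h0.comp h).add_const 1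

theorem tendsto_thetaA : Tendsto (fun z : ℍ => thetaA z) atImInfty (𝓝 1) :=
  (tendsto_jacobiTheta (c := 2) two_pos).congr fun z => by rw [thetaA]; norm_num

theorem tendsto_thetaB : Tendsto (fun z : ℍ => thetaB z) atImInfty (𝓝 0) := by
  have := (tendsto_jacobiTheta (c := 1 / 2) one_half_pos).sub tendsto_thetaA
  rw [sub_self] at this
  refine this.congr fun z => ?_
  rw [show ((1 / 2 : ℝ) : ℂ) * z = (z : ℂ) / 2 by push_cast; ring, (theta_split z.im_pos).1,
    add_sub_cancel_left]

/-- A form of degree `2 m`, invariant under both substitutions. -/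
structure Inv (m : ℕ) (F : ℂ → ℂ → ℂ) : Prop where
  smul : ∀ a x y, F (a * x) (a * y) = a ^ (2 * m) * F x y
  swap : ∀ x y, F (x + y) (x - y) = 2 ^ m * F x y
  turn : ∀ x y, F x (I * y) = F x y
  diff : Differentiable ℂ fun v : ℂ × ℂ => F v.1 v.2

variable {m : ℕ} {F : ℂ → ℂ → ℂ}

theorem Inv.slash_S (h : Inv m F) (h4 : 4 ∣ m) :
    (fun z : ℍ => F (thetaA z) (thetaB z)) ∣[(m : ℤ)] ModularGroup.S =
      fun z : ℍ => F (thetaA z) (thetaB z) := by
  funext z
  obtain ⟨h1, h2⟩ := theta_inversion (τ := z) z.im_pos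
  have hz : (z : ℂ) ≠ 0 := UpperHalfPlane.ne_zero z
  rw [ModularForm.SL_slash_apply, ModularGroup.denom_S, UpperHalfPlane.modular_S_smul]
  show F (thetaA (-(z : ℂ))⁻¹) (thetaB (-(z : ℂ))⁻¹) * (z : ℂ) ^ (-(m : ℤ)) = _
  obtain ⟨j, rfl⟩ := h4
  rw [show (-(z : ℂ))⁻¹ = -1 / (z : ℂ) by field_simp, h1, h2, h.smul, h.swap, pow_mul,
    show (((-I * ((z : ℂ) / 2)) ^ (1 / 2 : ℂ)) ^ 2) = -I * ((z : ℂ) / 2) by
      rw [← Complex.cpow_nat_mul]; norm_num,
    zpow_neg, zpow_natCast, pow_mul, pow_mul (z : ℂ), pow_mul (2 : ℂ)]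
  rw [show (-I * ((z : ℂ) / 2)) ^ 4 = (z : ℂ) ^ 4 / 2 ^ 4 by
    rw [mul_pow, neg_pow, Complex.I_pow_four, div_pow]; ring, div_pow]
  field_simp

theorem Inv.slash_T (h : Inv m F) :
    (fun z : ℍ => F (thetaA z) (thetaB z)) ∣[(m : ℤ)] ModularGroup.T =
      fun z : ℍ => F (thetaA z) (thetaB z) := by
  funext z
  rw [ModularForm.SL_slash_apply, UpperHalfPlane.modular_T_smul, UpperHalfPlane.coe_vadd]
  simp only [denom, ModularGroup.T]
  rw [Complex.ofReal_one, add_comm (1 : ℂ) z, thetaA_add_one, thetaB_add_one, h.turn]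
  simp

/-- The modular form of an invariant form. -/
def Inv.form (h : Inv m F) (h4 : 4 ∣ m) : ModularForm 𝒮ℒ (m : ℤ) where
  toFun z := F (thetaA z) (thetaB z)
  slash_action_eq' A hA := by
    obtain ⟨A, rfl⟩ := hA
    exact slash_action_generators_SL2Z (h.slash_S h4) h.slash_T A
  holo' := by
    rw [UpperHalfPlane.mdifferentiable_iff]
    refine DifferentiableOn.congr (f := fun w : ℂ => F (thetaA w) (thetaB w)) (fun w hw => ?_)
      fun w hw => by simp [ofComplex_apply_of_im_pos hw]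
    exact ((h.diff _).comp w ((differentiableAt_thetaA hw).prodMk
      (differentiableAt_thetaB hw))).differentiableWithinAt
  bdd_at_cusps' hc := by
    rw [Subgroup.IsArithmetic.isCusp_iff_isCusp_SL2Z] at hc
    refine (OnePoint.isBoundedAt_iff_forall_SL2Z hc).2 fun γ _ => ?_
    rw [slash_action_generators_SL2Z (h.slash_S h4) h.slash_T γ]
    exact ((h.diff.continuous.tendsto (1, 0)).comp
      (tendsto_thetaA.prodMk_nhds tendsto_thetaB)).isBigO_one ℝ

theorem Inv.tendsto_form (h : Inv m F) :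
    Tendsto (fun z : ℍ => F (thetaA z) (thetaB z)) atImInfty (𝓝 (F 1 0)) :=
  (h.diff.continuous.tendsto (1, 0)).comp (tendsto_thetaA.prodMk_nhds tendsto_thetaB)

theorem theta_ray {t : ℝ} :
    thetaA (t * I) = (FA.ThetaAGM.thetaThree (2 * t) : ℂ) ∧
      thetaB (t * I) = (FA.ThetaAGM.thetaTwo (2 * t) : ℂ) := by
  constructor
  · rw [thetaA, jacobiTheta, FA.ThetaAGM.thetaThree, Complex.ofReal_tsum]
    refine tsum_congr fun k => ?_
    rw [Complex.ofReal_exp]
    push_cast
    congr 1
    linear_combination (2 * π * (k : ℂ) ^ 2 * t) * Complex.I_mul_I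
  · rw [thetaB, jacobiTheta₂, FA.ThetaAGM.thetaTwo, Complex.ofReal_tsum, ← tsum_mul_left]
    refine tsum_congr fun k => ?_
    rw [jacobiTheta₂_term, ← Complex.exp_add, Complex.ofReal_exp]
    push_cast
    congr 1
    linear_combination (2 * π * ((k : ℂ) + 1 / 2) ^ 2 * t) * Complex.I_mul_I

/-- A form vanishing on all the pairs `(A, B)` is zero. -/
theorem eq_zero_of_theta (hs : ∀ a x y, F (a * x) (a * y) = a ^ (2 * m) * F x y)
    (hc : ∀ y, Continuous fun x => F x y) {p : Polynomial ℂ} (hp : ∀ y, F 1 y = p.eval y)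
    (h0 : ∀ z : ℍ, F (thetaA z) (thetaB z) = 0) : ∀ x y, F x y = 0 := by
  have hp0 : p = 0 := by
    by_contra hne
    obtain ⟨r, hr⟩ : ∃ r : ℝ → ℂ, r = fun t : ℝ => thetaB ((t : ℂ) * I) / thetaA ((t : ℂ) * I) :=
      ⟨_, rfl⟩
    have hz : ∀ t : ℝ, 0 < t → p.eval (r t) = 0 ∧ r t ≠ 0 := fun t ht => by
      have hA : thetaA (t * I) ≠ 0 := by
        rw [theta_ray.1]
        exact Complex.ofReal_ne_zero.2 (FA.ThetaAGM.thetaThree_pos (by positivity)).ne'
      refine ⟨?_, ?_⟩
      · have := h0 ⟨t * I, by simpa using ht⟩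
        simp only at this
        have e : F (thetaA (t * I) * 1) (thetaA (t * I) * r t) = 0 := by
          rwa [mul_one, hr, mul_div_cancel₀ _ hA]
        rw [hs, hp] at e
        exact (mul_eq_zero.1 e).resolve_left (pow_ne_zero _ hA)
      · rw [hr]
        refine div_ne_zero ?_ hA
        rw [theta_ray.2]
        exact Complex.ofReal_ne_zero.2 (FA.ThetaAGM.thetaTwo_pos (by positivity)).ne'
    have hray : Tendsto (fun t : {t : ℝ // 0 < t} => (⟨(t : ℝ) * I, by simpa using t.2⟩ : ℍ))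
        (comap Subtype.val atTop) atImInfty := by
      rw [atImInfty, tendsto_comap_iff]
      refine (tendsto_comap (f := (Subtype.val : {t : ℝ // 0 < t} → ℝ))).congr fun t => ?_
      simp [UpperHalfPlane.im]
    have hlim : Tendsto (fun t : {t : ℝ // 0 < t} => r t) (comap Subtype.val atTop) (𝓝 0) := by
      have := (tendsto_thetaB.div tendsto_thetaA one_ne_zero).comp hray
      rw [zero_div] at this
      simpa [hr, Function.comp_def] using this
    have hS : ∀ᶠ t : {t : ℝ // 0 < t} in comap Subtype.val atTop,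
        r t ∉ p.roots.toFinset.erase 0 :=
      hlim.eventually ((Finset.finite_toSet _).isClosed.isOpen_compl.mem_nhds
        (Finset.notMem_erase 0 _))
    have : (comap (Subtype.val : {t : ℝ // 0 < t} → ℝ) atTop).NeBot :=
      comap_neBot fun s hs => by
        obtain ⟨a, ha⟩ := mem_atTop_sets.1 hs
        exact ⟨⟨max a 1, lt_max_of_lt_right one_pos⟩, ha _ (le_max_left _ _)⟩
    obtain ⟨t, ht⟩ := hS.exists
    exact ht (Finset.mem_erase.2 ⟨(hz t t.2).2, Multiset.mem_toFinset.2
      ((Polynomial.mem_roots hne).2 (hz t t.2).1)⟩)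
  intro x y
  refine congrFun ((hc y).ext_on (dense_compl_singleton (0 : ℂ)) continuous_const fun x hx => ?_) x
  have := hs x 1 (y / x)
  rw [mul_one, mul_div_cancel₀ _ hx, hp, hp0, Polynomial.eval_zero, mul_zero] at this
  exact this

end FA.Gleason

end
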